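import Fermat.Agent.PointwiseErgodic.Levy

/-!
# Lochs's theorem

A cylinder of depth `k` is the image of `(0, 1)` under a branch with
`|branch s - branch t| = |s - t| / ((q + q' s) (q + q' t))`. With `P k` the product of the first `k`
points of the orbit of `x`, the cylinder of `x` has length at most `4 P k ^ 2` and reaches
`P (k + 2) P k / 8` to both sides of `x`, and Lévy's theorem gives `log P k / k`.
-/

set_option autoImplicit false

noncomputable section

open MeasureTheory Filter Topology Set Real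
open FA.PeriodicFractions FA.PointwiseErgodic

namespace FA.Lochs

/-- All reals with the first `n` digits of `x` in base `b` have its first `k` partial quotients. -/
def Determined (b n : ℕ) (x : ℝ) (k : ℕ) : Prop :=
  ∀ y : ℝ, ⌊(b : ℝ) ^ n * y⌋ = ⌊(b : ℝ) ^ n * x⌋ →
    ∀ i < k, (GenContFract.of y).s.get? i = (GenContFract.of x).s.get? i

/-- The product of the first points of the orbit. -/
def orbitProd (x : ℝ) (k : ℕ) : ℝ := ∏ i ∈ Finset.range k, gaussMap^[i] (Int.fract x)

theorem fract_mem {x : ℝ} (hx : Irrational x) : Int.fract x ∈ unitIrr :=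
  ⟨⟨fract_cq_pos hx 0, Int.fract_lt_one x⟩, hx.sub_intCast ⌊x⌋⟩

theorem branch_real {x : ℝ} (hx : x ∈ unitIrr) : ∀ n {t : ℝ}, t ∈ Ioo (0 : ℝ) 1 →
    branch x n t ∈ Ioo (0 : ℝ) 1 ∧ gaussMap^[n] (branch x n t) = t ∧
      ∀ i < n, gaussMap^[i] (branch x n t) ∈ Ioo (0 : ℝ) 1 ∧
        ⌊(gaussMap^[i] (branch x n t))⁻¹⌋ = digit x (i + 1) := by
  intro n
  induction n with
  | zero =>
    intro t ht
    have hb : branch x 0 t = t := by simp [branch, contin, digit_unitIrr_zero hx]
    rw [hb]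
    exact ⟨ht, rfl, fun i hi => absurd hi (Nat.not_lt_zero i)⟩
  | succ n ih =>
    intro t ht
    have ha : (1 : ℝ) ≤ digit x (n + 1) := by exact_mod_cast one_le_digit hx.2 n
    have hpos : 0 < (digit x (n + 1) : ℝ) + t := by linarith [ht.1]
    have ht' : ((digit x (n + 1) : ℝ) + t)⁻¹ ∈ Ioo (0 : ℝ) 1 :=
      ⟨inv_pos.2 hpos, inv_lt_one_of_one_lt₀ (by linarith [ht.1])⟩
    obtain ⟨hmem, hit, hdig⟩ := ih ht'
    have hb : branch x (n + 1) t = branch x n ((digit x (n + 1) : ℝ) + t)⁻¹ := by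
      obtain ⟨hq0, hq', -⟩ := den_bounds hx.2 n
      have h0 : (0 : ℝ) < (contin x (n + 1)).2.2.1 := by exact_mod_cast hq0
      have h1 : (0 : ℝ) ≤ (contin x (n + 1)).2.2.2 := by exact_mod_cast hq'
      have hA : 0 < ((contin x (n + 1)).2.2.1 : ℝ) * digit x (n + 1) +
          (contin x (n + 1)).2.2.2 + (contin x (n + 1)).2.2.1 * t := by
        nlinarith [mul_pos h0 hpos]
      have hs : ((digit x (n + 1) : ℝ) + t) * ((digit x (n + 1) : ℝ) + t)⁻¹ = 1 :=
        mul_inv_cancel₀ hpos.ne'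
      have hB : 0 < ((contin x (n + 1)).2.2.1 : ℝ) +
          (contin x (n + 1)).2.2.2 * ((digit x (n + 1) : ℝ) + t)⁻¹ := by positivity
      rw [branch, branch, contin.eq_def x (n + 1 + 1)]
      simp only
      push_cast
      rw [div_eq_div_iff hA.ne' hB.ne']
      linear_combination (((contin x (n + 1)).1 : ℝ) * (contin x (n + 1)).2.2.2 -
        ((contin x (n + 1)).2.1 : ℝ) * (contin x (n + 1)).2.2.1) * hs
    rw [hb]
    refine ⟨hmem, ?_, fun i hi => ?_⟩
    · rw [Function.iterate_succ_apply', hit, gaussMap, inv_inv, Int.fract_intCast_add,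
        Int.fract_eq_self.2 ⟨ht.1.le, ht.2⟩]
    · rcases Nat.lt_or_ge i n with h | h
      · exact hdig i h
      · obtain rfl : i = n := by omega
        rw [hit, inv_inv, Int.floor_intCast_add, Int.floor_eq_zero_iff.2 ⟨ht.1.le, ht.2⟩, add_zero]
        exact ⟨ht', rfl⟩

theorem get?_of_iterate : ∀ (i : ℕ) (y : ℝ), (∀ j ≤ i, gaussMap^[j] (Int.fract y) ≠ 0) →
    (GenContFract.of y).s.get? i = some ⟨1, (⌊(gaussMap^[i] (Int.fract y))⁻¹⌋ : ℝ)⟩
  | 0, y, h => GenContFract.of_s_head (h 0 le_rfl)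
  | i + 1, y, h => by
    rw [GenContFract.of_s_succ, get?_of_iterate i (Int.fract y)⁻¹ fun j hj => ?_,
      Function.iterate_succ_apply]
    · rfl
    · have := h (j + 1) (Nat.succ_le_succ hj)
      rwa [Function.iterate_succ_apply] at this

theorem abs_branch_sub {x : ℝ} (hx : Irrational x) (n : ℕ) {s t : ℝ} (hs : 0 ≤ s) (ht : 0 ≤ t) :
    |branch x n s - branch x n t| = |s - t| /
      ((((contin x (n + 1)).2.2.1 : ℝ) + (contin x (n + 1)).2.2.2 * s) *
        (((contin x (n + 1)).2.2.1 : ℝ) + (contin x (n + 1)).2.2.2 * t)) := by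
  obtain ⟨p, p', q, q', he, -, hdet, hq', hq⟩ := contin_spec hx (n + 1)
  obtain ⟨hq0, -⟩ := hq.resolve_left n.succ_ne_zero
  rw [branch, branch, he]
  simp only
  have h0 : (0 : ℝ) < q := by exact_mod_cast hq0
  have h1 : (0 : ℝ) ≤ q' := by exact_mod_cast hq'
  have hdet' : |(p : ℝ) * q' - p' * q| = 1 := by exact_mod_cast hdet
  have hs' : 0 < (q : ℝ) + q' * s := by positivity
  have ht' : 0 < (q : ℝ) + q' * t := by positivity
  rw [div_sub_div _ _ hs'.ne' ht'.ne', abs_div, abs_of_pos (mul_pos hs' ht'),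
    show ((p : ℝ) + p' * s) * (q + q' * t) - ((q : ℝ) + q' * s) * (p + p' * t) =
      ((p : ℝ) * q' - p' * q) * (t - s) by ring, abs_mul, hdet', one_mul, abs_sub_comm]

theorem orbitProd_pos {x : ℝ} (hx : Irrational x) (k : ℕ) : 0 < orbitProd x k :=
  Finset.prod_pos fun i _ => (iterate_mem_unitIrr (fract_mem hx) i).1.1

/-- The continuant of the fractional part. -/
theorem orbitProd_bounds {x : ℝ} (hx : Irrational x) (k : ℕ) :
    1 / (2 * ((contin (Int.fract x) (k + 1)).2.2.1 : ℝ)) ≤ orbitProd x k ∧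
      orbitProd x k ≤ 1 / ((contin (Int.fract x) (k + 1)).2.2.1 : ℝ) := by
  simpa only [Int.fract_fract, orbitProd] using prod_orbit_bounds (fract_mem hx).2 k

theorem mem_uIcc_of_abs_add {A B u : ℝ} (h : |u - A| + |B - u| = |B - A|) : u ∈ uIcc A B := by
  rw [Set.mem_uIcc]
  rcases abs_cases (u - A) with ha | ha <;> rcases abs_cases (B - u) with hb | hb <;>
    rcases abs_cases (B - A) with hc | hc <;>
    first
      | exact Or.inl ⟨by linarith, by linarith⟩
      | exact Or.inr ⟨by linarith, by linarith⟩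

/-- Near `x` all reals have its first quotients. -/
theorem get?_eq_of_near {x y : ℝ} (hx : Irrational x) (hfl : ⌊y⌋ = ⌊x⌋) {k : ℕ}
    (h : |y - x| < orbitProd x (k + 2) * orbitProd x k / 8) {i : ℕ} (hi : i < k) :
    (GenContFract.of y).s.get? i = (GenContFract.of x).s.get? i := by
  have hm := fract_mem hx
  set u := Int.fract x with hu
  obtain ⟨hb0, hb1, hb2⟩ := den_bounds hm.2 k
  set q : ℝ := ((contin u (k + 1)).2.2.1 : ℝ) with hq
  set q' : ℝ := ((contin u (k + 1)).2.2.2 : ℝ) with hq'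
  have hq0 : 0 < q := by rw [hq]; exact_mod_cast hb0
  have hq1 : 0 ≤ q' := by rw [hq']; exact_mod_cast hb1
  have hq2 : q' ≤ q := by rw [hq, hq']; exact_mod_cast hb2
  set t := gaussMap^[k] u with ht
  set t' := gaussMap^[k + 1] u with ht'
  have htm := (iterate_mem_unitIrr hm k).1
  have htm' := (iterate_mem_unitIrr hm (k + 1)).1
  have hP := orbitProd_pos hx k
  have hPq : orbitProd x k ≤ 1 / q := (orbitProd_bounds hx k).2
  have hut : branch u k t = u := branch_iterate ⟨hm, fun _ _ => rfl⟩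
  have hR : orbitProd x (k + 2) * orbitProd x k / 8 ≤ t * t' / (8 * q ^ 2) := by
    rw [orbitProd, Finset.prod_range_succ, Finset.prod_range_succ, ← hu, ← ht, ← ht']
    change orbitProd x k * t * t' * orbitProd x k / 8 ≤ _
    have h2 : orbitProd x k ^ 2 ≤ 1 / q ^ 2 := by
      rw [← one_div_pow]
      exact pow_le_pow_left₀ hP.le hPq 2
    have := mul_le_mul_of_nonneg_left h2 (mul_nonneg htm.1.le htm'.1.le)
    rw [mul_one_div] at this
    rw [div_mul_eq_div_div_swap]
    exact (div_le_div_iff_of_pos_right (by norm_num)).2 (by linarith)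
  have hden : ∀ s ∈ Icc (0 : ℝ) 1, 0 < (q + q' * t) * (q + q' * s) ∧
      (q + q' * t) * (q + q' * s) ≤ 4 * q ^ 2 := fun s hs => by
    have e1 : q' * t ≤ q := (mul_le_of_le_one_right hq1 htm.2.le).trans hq2
    have e2 : q' * s ≤ q := (mul_le_of_le_one_right hq1 hs.2).trans hq2
    refine ⟨mul_pos (add_pos_of_pos_of_nonneg hq0 (mul_nonneg hq1 htm.1.le))
      (add_pos_of_pos_of_nonneg hq0 (mul_nonneg hq1 hs.1)), ?_⟩
    refine (mul_le_mul (show q + q' * t ≤ 2 * q by linarith) (show q + q' * s ≤ 2 * q by linarith)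
      (add_nonneg hq0.le (mul_nonneg hq1 hs.1)) (by linarith)).trans_eq ?_
    ring
  have hend : ∀ s ∈ Icc (0 : ℝ) 1, t * t' / 2 ≤ |t - s| →
      |Int.fract y - u| < |branch u k t - branch u k s| := fun s hs hts => by
    rw [abs_branch_sub hm.2 k htm.1.le hs.1, ← hq, ← hq', hu,
      show Int.fract y - Int.fract x = y - x by
        rw [Int.fract, Int.fract, hfl, sub_sub_sub_cancel_right]]
    refine h.trans_le (hR.trans ?_)
    refine le_trans ?_ (div_le_div₀ (abs_nonneg _) hts (hden s hs).1 (hden s hs).2)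
    exact le_of_eq (by ring)
  have h0 : |Int.fract y - u| < |branch u k t - branch u k 0| := by
    refine hend 0 ⟨le_rfl, zero_le_one⟩ ?_
    rw [sub_zero, abs_of_pos htm.1]
    have := mul_le_of_le_one_right htm.1.le htm'.2.le
    linarith [htm.1]
  have h1 : |Int.fract y - u| < |branch u k t - branch u k 1| := by
    refine hend 1 ⟨zero_le_one, le_rfl⟩ ?_
    rw [abs_sub_comm, abs_of_pos (sub_pos.2 htm.2)]
    rcases le_or_gt t (1 / 2) with h2 | h2
    · have := mul_le_mul h2 htm'.2.le htm'.1.le (by norm_num : (0 : ℝ) ≤ 1 / 2)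
      linarith
    · have e : t' = t⁻¹ - 1 := by
        rw [ht', Function.iterate_succ_apply', ← ht, gaussMap, Int.fract, show ⌊t⁻¹⌋ = 1 from
          Int.floor_eq_iff.2 ⟨by exact_mod_cast ((one_lt_inv₀ htm.1).2 htm.2).le, by
            push_cast
            rw [inv_lt_comm₀ htm.1 (by norm_num)]
            norm_num
            linarith⟩, Int.cast_one]
      rw [e, mul_sub, mul_inv_cancel₀ htm.1.ne', mul_one]
      linarith [htm.2]
  have hcont : ContinuousOn (branch u k) (Icc 0 1) := fun s hs => by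
    obtain ⟨d, hd, -⟩ := hasDerivAt_branch hm.2 k hs.1
    exact hd.continuousAt.continuousWithinAt
  rw [hut] at h0 h1
  obtain ⟨s, hs, hsy⟩ : ∃ s ∈ Ioo (0 : ℝ) 1, branch u k s = Int.fract y := by
    have hmem : Int.fract y ∈ uIcc (branch u k 0) (branch u k 1) := by
      have hside : u ∈ uIcc (branch u k 0) (branch u k 1) := by
        have e0 := abs_branch_sub hm.2 k htm.1.le (le_refl (0 : ℝ))
        have e1 := abs_branch_sub hm.2 k zero_le_one htm.1.le
        have e2 := abs_branch_sub hm.2 k zero_le_one (le_refl (0 : ℝ))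
        rw [hut, ← hq, ← hq', sub_zero, mul_zero, add_zero, abs_of_pos htm.1] at e0
        rw [hut, ← hq, ← hq', abs_of_pos (sub_pos.2 htm.2), mul_one] at e1
        rw [← hq, ← hq', mul_one, sub_zero, abs_one, mul_zero, add_zero] at e2
        have hsum : |u - branch u k 0| + |branch u k 1 - u| = |branch u k 1 - branch u k 0| := by
          rw [e0, e1, e2]
          have n1 : 0 < q + q' := add_pos_of_pos_of_nonneg hq0 hq1
          have n2 : 0 < q + q' * t := add_pos_of_pos_of_nonneg hq0 (mul_nonneg hq1 htm.1.le)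
          rw [div_add_div _ _ (by positivity) (by positivity),
            div_eq_div_iff (by positivity) (by positivity)]
          ring
        exact mem_uIcc_of_abs_add hsum
      obtain ⟨l0, l1⟩ := abs_lt.1 h0
      obtain ⟨m0, m1⟩ := abs_lt.1 h1
      rw [Set.mem_uIcc] at hside ⊢
      rcases hside with ⟨a, b⟩ | ⟨a, b⟩
      · rw [abs_of_nonneg (sub_nonneg.2 a)] at l0 l1
        rw [abs_of_nonpos (sub_nonpos.2 b)] at m0 m1
        exact Or.inl ⟨by linarith, by linarith⟩
      · rw [abs_of_nonpos (sub_nonpos.2 b)] at l0 l1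
        rw [abs_of_nonneg (sub_nonneg.2 a)] at m0 m1
        exact Or.inr ⟨by linarith, by linarith⟩
    obtain ⟨s, hs, hsy⟩ :=
      intermediate_value_uIcc (by rwa [uIcc_of_le zero_le_one]) hmem
    rw [uIcc_of_le zero_le_one] at hs
    refine ⟨s, ⟨hs.1.lt_of_ne fun e => ?_, hs.2.lt_of_ne fun e => ?_⟩, hsy⟩
    · rw [← hsy, ← e, abs_sub_comm] at h0
      exact lt_irrefl _ h0
    · rw [← hsy, e, abs_sub_comm] at h1
      exact lt_irrefl _ h1
  obtain ⟨-, -, hdig⟩ := branch_real hm k hs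
  rw [hsy] at hdig
  rw [get?_of_iterate i y fun j hj => (hdig j (by omega)).1.1.ne', (hdig i hi).2, get?_of hx i,
    digit_eq_iterate hx i, digit_eq_iterate hm.2 i, hu, Int.fract_fract]

theorem floor_eq_of_scaled {M : ℕ} (hM : 0 < M) {x y : ℝ}
    (h : ⌊(M : ℝ) * y⌋ = ⌊(M : ℝ) * x⌋) : ⌊y⌋ = ⌊x⌋ := by
  have hM' : (0 : ℝ) < M := Nat.cast_pos.2 hM
  have key : ∀ {u v : ℝ}, ⌊(M : ℝ) * u⌋ = ⌊(M : ℝ) * v⌋ → ⌊v⌋ ≤ ⌊u⌋ := fun {u v} e => by
    refine Int.le_floor.2 ?_
    have h1 : ((M * ⌊v⌋ : ℤ) : ℝ) ≤ (M : ℝ) * v := by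
      push_cast
      exact mul_le_mul_of_nonneg_left (Int.floor_le v) hM'.le
    have h2 := Int.le_floor.2 h1
    rw [← e] at h2
    have h3 := Int.le_floor.1 h2
    push_cast at h3
    exact le_of_mul_le_mul_left h3 hM'
  exact le_antisymm (key h.symm) (key h)

theorem determined_of_lt {b n : ℕ} (hb : 0 < b) {x : ℝ} (hx : Irrational x) {k : ℕ}
    (h : ((b : ℝ) ^ n)⁻¹ ≤ orbitProd x (k + 2) * orbitProd x k / 8) : Determined b n x k := by
  intro y hy i hi
  have hM : (0 : ℝ) < (b : ℝ) ^ n := by positivity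
  refine get?_eq_of_near hx (floor_eq_of_scaled (M := b ^ n) (pow_pos hb n) (by exact_mod_cast hy))
    (lt_of_lt_of_le ?_ h) hi
  have := Int.abs_sub_lt_one_of_floor_eq_floor hy
  rw [← mul_sub, abs_mul, abs_of_pos hM] at this
  rw [inv_eq_one_div, lt_div_iff₀ hM]
  linarith

theorem le_of_determined {b n : ℕ} (hb : 0 < b) {x : ℝ} (hx : Irrational x) {k : ℕ}
    (h : Determined b n x k) : ((b : ℝ) ^ n)⁻¹ ≤ 16 * orbitProd x k ^ 2 := by
  have hM : (0 : ℝ) < (b : ℝ) ^ n := by positivity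
  set m := ⌊(b : ℝ) ^ n * x⌋
  have hm1 := Int.floor_le ((b : ℝ) ^ n * x)
  have hm2 := Int.lt_floor_add_one ((b : ℝ) ^ n * x)
  obtain ⟨y, hy, hy1, hy2, hy3⟩ : ∃ y : ℝ, Irrational y ∧ (m : ℝ) ≤ (b : ℝ) ^ n * y ∧
      (b : ℝ) ^ n * y < m + 1 ∧ 1 / 4 ≤ |(b : ℝ) ^ n * y - (b : ℝ) ^ n * x| := by
    rcases le_or_gt ((b : ℝ) ^ n * x) (m + 1 / 2) with hc | hc
    · obtain ⟨y, hy, h1, h2⟩ := exists_irrational_btwn
        (show ((m : ℝ) + 3 / 4) / (b : ℝ) ^ n < ((m : ℝ) + 1) / (b : ℝ) ^ n by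
          gcongr; linarith)
      rw [div_lt_iff₀ hM] at h1
      rw [lt_div_iff₀ hM] at h2
      exact ⟨y, hy, by linarith, by linarith, le_trans (by linarith) (le_abs_self _)⟩
    · obtain ⟨y, hy, h1, h2⟩ := exists_irrational_btwn
        (show (m : ℝ) / (b : ℝ) ^ n < ((m : ℝ) + 1 / 4) / (b : ℝ) ^ n by gcongr; linarith)
      rw [div_lt_iff₀ hM] at h1
      rw [lt_div_iff₀ hM] at h2
      exact ⟨y, hy, by linarith, by linarith, le_trans (by linarith) (neg_le_abs _)⟩
  have hfl : ⌊(b : ℝ) ^ n * y⌋ = ⌊(b : ℝ) ^ n * x⌋ := Int.floor_eq_iff.2 ⟨hy1, hy2⟩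
  have hxy : ⌊y⌋ = ⌊x⌋ :=
    floor_eq_of_scaled (M := b ^ n) (pow_pos hb n) (by exact_mod_cast hfl)
  have hm := fract_mem hx
  have hm' := fract_mem hy
  have hcyl : Int.fract y ∈ gaussCylinder (Int.fract x) k := ⟨hm', fun j hj => by
    rcases j with - | i
    · rw [digit_unitIrr_zero hm', digit_unitIrr_zero hm]
    · have e := h y hfl i (by omega)
      rw [get?_of hy, get?_of hx, Option.some.injEq, GenContFract.Pair.mk.injEq] at e
      rw [digit_eq_iterate hm'.2, digit_eq_iterate hm.2, Int.fract_fract, Int.fract_fract,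
        ← digit_eq_iterate hy, ← digit_eq_iterate hx]
      exact_mod_cast e.2⟩
  have hu := branch_iterate (x := Int.fract x) (y := Int.fract x) (n := k) ⟨hm, fun _ _ => rfl⟩
  have hv := branch_iterate hcyl
  have hd : |y - x| ≤ 4 * orbitProd x k ^ 2 := by
    rw [show y - x = Int.fract y - Int.fract x by
      rw [Int.fract, Int.fract, hxy, sub_sub_sub_cancel_right], ← hu, ← hv,
      abs_branch_sub hm.2 k (iterate_mem_unitIrr hm' k).1.1.le (iterate_mem_unitIrr hm k).1.1.le]
    obtain ⟨hb0, hb1, -⟩ := den_bounds hm.2 k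
    have hq : (0 : ℝ) < (contin (Int.fract x) (k + 1)).2.2.1 := by exact_mod_cast hb0
    have hq' : (0 : ℝ) ≤ (contin (Int.fract x) (k + 1)).2.2.2 := by exact_mod_cast hb1
    have ha := (iterate_mem_unitIrr hm' k).1
    have hc := (iterate_mem_unitIrr hm k).1
    refine (div_le_div₀ zero_le_one (abs_sub_lt_iff.2 ⟨by linarith [ha.2, hc.1],
      by linarith [ha.1, hc.2]⟩).le (mul_pos hq hq) (mul_le_mul (le_add_of_nonneg_right
        (mul_nonneg hq' ha.1.le)) (le_add_of_nonneg_right (mul_nonneg hq' hc.1.le)) hq.le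
        (add_nonneg hq.le (mul_nonneg hq' ha.1.le)))).trans ?_
    have h2 := pow_le_pow_left₀ (by positivity) (orbitProd_bounds hx k).1 2
    rw [div_pow, one_pow, mul_pow, ← div_div, div_le_iff₀ (by positivity)] at h2
    rw [← sq, div_le_iff₀ (by positivity)]
    linarith
  rw [← mul_sub, abs_mul, abs_of_pos hM] at hy3
  rw [inv_eq_one_div, div_le_iff₀ hM]
  nlinarith [mul_le_mul_of_nonneg_left hd hM.le]

theorem ae_orbitProd : ∀ᵐ x : ℝ, Irrational x ∧
    Tendsto (fun k : ℕ => -log (orbitProd x k) / k) atTop (𝓝 (π ^ 2 / (12 * log 2))) := by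
  have h := tendsto_average_ergodic ergodic_gaussMap integrable_log
  rw [PointwiseErgodic.integral_log] at h
  filter_upwards [ae_real_of_gauss h] with x ⟨hx, hlim⟩
  refine ⟨hx, ?_⟩
  rw [← neg_neg (π ^ 2 / (12 * log 2))]
  refine hlim.neg.congr fun k => ?_
  rw [orbitProd, log_prod fun i _ => (iterate_mem_unitIrr (fract_mem hx) i).1.1.ne',
    birkhoffAverage, birkhoffSum, smul_eq_mul, inv_mul_eq_div, neg_div]

/-- **Lochs's theorem.** -/
theorem ae_lochs {b : ℕ} (hb : 2 ≤ b) : ∀ᵐ x : ℝ, ∃ K : ℕ → ℕ,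
    (∀ n, IsGreatest {k | Determined b n x k} (K n)) ∧
      Tendsto (fun n : ℕ => (K n : ℝ) / n) atTop (𝓝 (6 * log 2 * log b / π ^ 2)) := by
  classical
  filter_upwards [ae_orbitProd] with x ⟨hx, hlim⟩
  have hl := log_pos one_lt_two
  set L := π ^ 2 / (12 * log 2) with hL
  have hL0 : 0 < L := by positivity
  have hβ : 0 < log (b : ℝ) := log_pos (by exact_mod_cast hb)
  set F : ℕ → ℝ := fun k => -log (orbitProd x k)
  have hF : Tendsto F atTop atTop := by
    refine Tendsto.congr' ?_ (hlim.pos_mul_atTop hL0 tendsto_natCast_atTop_atTop)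
    filter_upwards [eventually_ne_atTop 0] with k hk
    exact div_mul_cancel₀ _ (Nat.cast_ne_zero.2 hk)
  have hupper : ∀ n k, Determined b n x k → 2 * F k ≤ n * log b + log 16 := fun n k h => by
    have := log_le_log (by positivity) (le_of_determined (by omega) hx h)
    rw [log_inv, log_pow, log_mul (by norm_num) (pow_ne_zero _ (orbitProd_pos hx k).ne'),
      log_pow] at this
    simp only [F]
    push_cast at this
    linarith
  have hbdd : ∀ n, ∃ B, ∀ k, Determined b n x k → k < B := fun n => by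
    obtain ⟨B, hB⟩ := eventually_atTop.1 (hF.eventually_gt_atTop ((n * log b + log 16) / 2))
    refine ⟨B, fun k hk => not_le.1 fun hle => ?_⟩
    linarith [hupper n k hk, hB k hle]
  choose B hB using hbdd
  refine ⟨fun n => Nat.findGreatest (Determined b n x) (B n), fun n => ?_, ?_⟩
  · exact ⟨Nat.findGreatest_spec (Nat.zero_le _) fun y _ i hi => absurd hi (Nat.not_lt_zero i),
      fun k hk => Nat.le_findGreatest (hB n k hk).le hk⟩
  set K : ℕ → ℕ := fun n => Nat.findGreatest (Determined b n x) (B n)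
  have hK : ∀ n, Determined b n x (K n) := fun n =>
    Nat.findGreatest_spec (Nat.zero_le _) fun y _ i hi => absurd hi (Nat.not_lt_zero i)
  have hlower : ∀ n, n * log b ≤ F (K n + 3) + F (K n + 1) + log 8 := fun n => by
    have hnot : ¬Determined b n x (K n + 1) := fun h => by
      have := Nat.le_findGreatest (hB n _ h).le h
      simp only [K] at this
      omega
    have hlt := not_le.1 fun h => hnot (determined_of_lt (by omega) hx h)
    have p3 := orbitProd_pos hx (K n + 3)
    have p1 := orbitProd_pos hx (K n + 1)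
    have := log_le_log (by positivity) hlt.le
    rw [log_inv, log_pow, log_div (by positivity) (by norm_num), log_mul p3.ne' p1.ne'] at this
    simp only [F]
    linarith
  have hKtop : Tendsto K atTop atTop := by
    refine tendsto_atTop.2 fun j => ?_
    obtain ⟨C, hC⟩ : ∃ C, ∀ i ≤ j, F (i + 3) + F (i + 1) + log 8 ≤ C :=
      ⟨∑ i ∈ Finset.range (j + 1), |F (i + 3) + F (i + 1) + log 8|, fun i hi =>
        (le_abs_self _).trans (Finset.single_le_sum
          (f := fun i => |F (i + 3) + F (i + 1) + log 8|) (fun _ _ => abs_nonneg _)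
          (Finset.mem_range.2 (by omega)))⟩
    filter_upwards [(tendsto_natCast_atTop_atTop.atTop_mul_const hβ).eventually_gt_atTop C]
      with n hn
    by_contra! hlt
    linarith [hlower n, hC (K n) hlt.le]
  have hshift : ∀ c : ℕ, Tendsto (fun k : ℕ => F (k + c) / k) atTop (𝓝 L) := fun c => by
    have h1 : Tendsto (fun k : ℕ => ((k + c : ℕ) : ℝ) / k) atTop (𝓝 1) := by
      have := (tendsto_const_nhds (x := (1 : ℝ))).add
        (tendsto_const_div_atTop_nhds_zero_nat (c : ℝ))
      rw [add_zero] at this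
      refine this.congr' ?_
      filter_upwards [eventually_ne_atTop 0] with k hk
      push_cast
      field_simp
    have h2 := (hlim.comp (tendsto_add_atTop_nat c)).mul h1
    rw [mul_one] at h2
    refine h2.congr' ?_
    filter_upwards [eventually_ne_atTop 0] with k hk
    exact div_mul_div_cancel₀ (Nat.cast_ne_zero.2 (Nat.add_pos_left (Nat.pos_of_ne_zero hk) c).ne')
  have hlo : Tendsto (fun k : ℕ => (2 * F k - log 16) / k) atTop (𝓝 (2 * L)) := by
    have := ((hshift 0).const_mul 2).sub (tendsto_const_div_atTop_nhds_zero_nat (log 16))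
    rw [sub_zero] at this
    exact this.congr fun k => by rw [sub_div, mul_div_assoc]; rfl
  have hhi : Tendsto (fun k : ℕ => (F (k + 3) + F (k + 1) + log 8) / k) atTop (𝓝 (2 * L)) := by
    have := ((hshift 3).add (hshift 1)).add (tendsto_const_div_atTop_nhds_zero_nat (log 8))
    rw [add_zero, ← two_mul] at this
    exact this.congr fun k => by rw [add_div, add_div]
  have hr : Tendsto (fun n : ℕ => (n * log b) / (K n : ℝ)) atTop (𝓝 (2 * L)) :=
    tendsto_of_tendsto_of_tendsto_of_le_of_le (hlo.comp hKtop) (hhi.comp hKtop)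
      (fun n => div_le_div_of_nonneg_right (by linarith [hupper n _ (hK n)]) (Nat.cast_nonneg _))
      (fun n => div_le_div_of_nonneg_right (hlower n) (Nat.cast_nonneg _))
  have h := (hr.inv₀ (by positivity)).const_mul (log (b : ℝ))
  rw [show log (b : ℝ) * (2 * L)⁻¹ = 6 * log 2 * log b / π ^ 2 by
    rw [hL]; field_simp; ring] at h
  refine h.congr fun n => ?_
  rw [inv_div, mul_div_assoc', mul_comm (log (b : ℝ)), mul_div_mul_right _ _ hβ.ne']

end FA.Lochs

end
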